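import Fermat.Agent.ArithmeticTruth.Definable

/-!
# The models of Robinson's arithmetic

The numerals are closed under the operations, which act on them as on the natural numbers, and
nothing else lies below a numeral.
-/

set_option autoImplicit false

namespace FA.RobinsonArithmetic

open FirstOrder Language ArithmeticTruth

variable {M : Type*} [arithLanguage.Structure M]

/-- Zero in a structure. -/
def zeroM : M :=
  Structure.funMap (L := arithLanguage) (n := 0) (0 : Fin 2) Fin.elim0

/-- One in a structure. -/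
def oneM : M :=
  Structure.funMap (L := arithLanguage) (n := 0) (1 : Fin 2) Fin.elim0

/-- The sum in a structure. -/
def addM (x y : M) : M :=
  Structure.funMap (L := arithLanguage) (n := 2) (0 : Fin 2) ![x, y]

/-- The product in a structure. -/
def mulM (x y : M) : M :=
  Structure.funMap (L := arithLanguage) (n := 2) (1 : Fin 2) ![x, y]

/-- The value of a numeral. -/
def numM : ℕ → M
  | 0 => zeroM
  | n + 1 => addM (numM n) oneM

/-- The order defined by addition. -/
def LeM (x y : M) : Prop :=
  ∃ w, addM w x = y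

variable {α : Type}

theorem realizeM_zeroTerm (v : α → M) : (zeroTerm : arithLanguage.Term α).realize v = zeroM :=
  congrArg (Structure.funMap _) (Subsingleton.elim _ _)

theorem realizeM_oneTerm (v : α → M) : (oneTerm : arithLanguage.Term α).realize v = oneM :=
  congrArg (Structure.funMap _) (Subsingleton.elim _ _)

theorem realizeM_addTerm (s t : arithLanguage.Term α) (v : α → M) :
    (addTerm s t).realize v = addM (s.realize v) (t.realize v) :=
  congrArg (Structure.funMap _) (funext (Fin.forall_fin_two.2 ⟨rfl, rfl⟩))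

theorem realizeM_mulTerm (s t : arithLanguage.Term α) (v : α → M) :
    (mulTerm s t).realize v = mulM (s.realize v) (t.realize v) :=
  congrArg (Structure.funMap _) (funext (Fin.forall_fin_two.2 ⟨rfl, rfl⟩))

/-- A bound variable. -/
def boundVar {n : ℕ} (i : Fin n) : arithLanguage.Term (Empty ⊕ Fin n) := .var (.inr i)

/-- **Robinson's arithmetic.** -/
def robinsonQ : arithLanguage.Theory :=
  {(BoundedFormula.equal (addTerm (boundVar (n := 1) 0) oneTerm) zeroTerm).not.all,
    ((BoundedFormula.equal (addTerm (boundVar (n := 2) 0) oneTerm)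
      (addTerm (boundVar 1) oneTerm)).imp (.equal (boundVar 0) (boundVar 1))).all.all,
    ((BoundedFormula.equal (boundVar (n := 1) 0) zeroTerm).not.imp
      (BoundedFormula.equal (boundVar (n := 2) 0) (addTerm (boundVar 1) oneTerm)).ex).all,
    (BoundedFormula.equal (addTerm (boundVar (n := 1) 0) zeroTerm) (boundVar 0)).all,
    (BoundedFormula.equal (addTerm (boundVar (n := 2) 0) (addTerm (boundVar 1) oneTerm))
      (addTerm (addTerm (boundVar 0) (boundVar 1)) oneTerm)).all.all,
    (BoundedFormula.equal (mulTerm (boundVar (n := 1) 0) zeroTerm) zeroTerm).all,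
    (BoundedFormula.equal (mulTerm (boundVar (n := 2) 0) (addTerm (boundVar 1) oneTerm))
      (addTerm (mulTerm (boundVar 0) (boundVar 1)) (boundVar 0))).all.all,
    BoundedFormula.equal oneTerm (addTerm (zeroTerm : arithLanguage.Term (Empty ⊕ Fin 0)) oneTerm)}

variable (M) in
/-- The meaning of Robinson's axioms. -/
structure IsRobinsonModel : Prop where
  succ_ne : ∀ x : M, addM x oneM ≠ zeroM
  succ_inj : ∀ x y : M, addM x oneM = addM y oneM → x = y
  pred : ∀ x : M, x ≠ zeroM → ∃ y, x = addM y oneM
  add_zeroM : ∀ x : M, addM x zeroM = x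
  add_succM : ∀ x y : M, addM x (addM y oneM) = addM (addM x y) oneM
  mul_zeroM : ∀ x : M, mulM x zeroM = zeroM
  mul_succM : ∀ x y : M, mulM x (addM y oneM) = addM (mulM x y) x
  one_eq : oneM = addM (zeroM : M) oneM

theorem model_robinsonQ_iff : M ⊨ robinsonQ ↔ IsRobinsonModel M := by
  simp [robinsonQ, Theory.model_iff, Sentence.Realize, Formula.Realize, BoundedFormula.Realize,
    realizeM_zeroTerm, realizeM_oneTerm, realizeM_addTerm, realizeM_mulTerm, boundVar, Fin.snoc]
  exact ⟨fun ⟨h₁, h₂, h₃, h₄, h₅, h₆, h₇, h₈⟩ => ⟨h₁, h₂, h₃, h₄, h₅, h₆, h₇, h₈⟩,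
    fun h => ⟨h.succ_ne, h.succ_inj, h.pred, h.add_zeroM, h.add_succM, h.mul_zeroM, h.mul_succM,
      h.one_eq⟩⟩

namespace IsRobinsonModel

variable (h : IsRobinsonModel M)
include h

theorem addM_numM (a : ℕ) : ∀ b, addM (numM a : M) (numM b) = numM (a + b)
  | 0 => h.add_zeroM _
  | b + 1 => by rw [numM, h.add_succM, addM_numM a b]; rfl

theorem oneM_eq : (oneM : M) = numM 1 := h.one_eq

theorem mulM_numM (a : ℕ) : ∀ b, mulM (numM a : M) (numM b) = numM (a * b)
  | 0 => h.mul_zeroM _
  | b + 1 => by rw [numM, h.mul_succM, mulM_numM a b, addM_numM h]; rfl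

theorem numM_injective : Function.Injective (numM : ℕ → M) := by
  intro a
  induction a with
  | zero =>
    intro b e
    cases b with
    | zero => rfl
    | succ b => exact absurd e.symm (h.succ_ne _)
  | succ a ih =>
    intro b e
    cases b with
    | zero => exact absurd e (h.succ_ne _)
    | succ b => rw [ih (h.succ_inj _ _ e)]

theorem exists_of_le_numM : ∀ {n : ℕ} {y : M}, LeM y (numM n) → ∃ k ≤ n, y = numM k
  | 0, y, ⟨w, e⟩ => by
    by_cases hy : y = zeroM
    · exact ⟨0, le_rfl, hy⟩
    · obtain ⟨y', rfl⟩ := h.pred y hy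
      rw [h.add_succM] at e
      exact absurd e (h.succ_ne _)
  | n + 1, y, ⟨w, e⟩ => by
    by_cases hy : y = zeroM
    · exact ⟨0, Nat.zero_le _, hy⟩
    · obtain ⟨y', rfl⟩ := h.pred y hy
      rw [h.add_succM] at e
      obtain ⟨k, hk, rfl⟩ := exists_of_le_numM ⟨w, h.succ_inj _ _ e⟩
      exact ⟨k + 1, Nat.succ_le_succ hk, rfl⟩

theorem numM_le_numM {k n : ℕ} (hk : k ≤ n) : LeM (numM k : M) (numM n) :=
  ⟨numM (n - k), by rw [h.addM_numM, Nat.sub_add_cancel hk]⟩

theorem le_or_succ_le : ∀ (n : ℕ) (y : M), LeM y (numM n) ∨ LeM (numM (n + 1)) y := by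
  intro n
  induction n with
  | zero =>
    intro y
    by_cases hy : y = zeroM
    · exact .inl ⟨zeroM, by rw [hy]; exact h.add_zeroM _⟩
    · obtain ⟨y', rfl⟩ := h.pred y hy
      refine .inr ⟨y', ?_⟩
      rw [numM, h.add_succM, numM, h.add_zeroM]
  | succ n ih =>
    intro y
    by_cases hy : y = zeroM
    · exact .inl ⟨numM (n + 1), by rw [hy]; exact h.add_zeroM _⟩
    · obtain ⟨y', rfl⟩ := h.pred y hy
      rcases ih y' with ⟨w, e⟩ | ⟨w, e⟩
      · exact .inl ⟨w, by rw [h.add_succM, e]; rfl⟩
      · exact .inr ⟨w, by rw [numM, h.add_succM, e]⟩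

theorem le_of_succ_le (m : ℕ) {y : M} : LeM (numM (m + 1)) y → LeM (numM m) y := by
  rintro ⟨w, e⟩
  refine ⟨addM w oneM, ?_⟩
  rw [← e]
  clear e y
  induction m with
  | zero => rw [numM, h.add_zeroM, numM, h.add_succM, numM, h.add_zeroM]
  | succ m ih => rw [numM, h.add_succM, ih, numM.eq_2 (m + 1), h.add_succM]

theorem realize_numM (u : α → ℕ) : ∀ t : arithLanguage.Term α,
    t.realize (fun i => (numM (u i) : M)) = numM (t.realize u)
  | .var i => rfl
  | .func (l := 0) f ts => by
    revert f
    refine Fin.forall_fin_two.2 ⟨?_, ?_⟩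
    · exact congrArg (Structure.funMap _) (Subsingleton.elim _ _)
    · exact (congrArg (Structure.funMap _) (Subsingleton.elim _ _)).trans h.oneM_eq
  | .func (l := 1) f _ => f.elim
  | .func (l := 2) f ts => by
    have e : (fun i => (ts i).realize fun i => (numM (u i) : M)) =
        ![numM ((ts 0).realize u), numM ((ts 1).realize u)] :=
      funext (Fin.forall_fin_two.2 ⟨realize_numM u (ts 0), realize_numM u (ts 1)⟩)
    revert f
    refine Fin.forall_fin_two.2 ⟨?_, ?_⟩
    · exact ((congrArg (Structure.funMap _) e).trans (h.addM_numM _ _))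
    · exact ((congrArg (Structure.funMap _) e).trans (h.mulM_numM _ _))
  | .func (l := _ + 3) f _ => f.elim

theorem realize_numeralTerm (v : α → M) :
    ∀ n, (numeral n : arithLanguage.Term α).realize v = numM n
  | 0 => realizeM_zeroTerm v
  | n + 1 => by
    rw [numeral, realizeM_addTerm, realizeM_oneTerm, realize_numeralTerm v n, h.oneM_eq,
      h.addM_numM, add_comm]

theorem realize_instance (φ : arithLanguage.BoundedFormula Empty 1) (n : ℕ) :
    M ⊨ instanceSentence φ n ↔ φ.Realize (default : Empty → M) ![numM n] := by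
  have e : ∀ (v : Fin 0 → M) (x : M), Fin.snoc v x = ![x] := fun v x => funext fun i => by
    simp [Fin.fin_one_eq_zero i, Fin.snoc]
  simp [instanceSentence, Sentence.Realize, Formula.Realize, BoundedFormula.Realize, e,
    h.realize_numeralTerm]

end IsRobinsonModel

theorem numM_nat : ∀ n, (numM n : ℕ) = n
  | 0 => rfl
  | n + 1 => congrArg (· + 1) (numM_nat n)

theorem isRobinsonModel_nat : IsRobinsonModel ℕ where
  succ_ne := Nat.succ_ne_zero
  succ_inj _ _ := Nat.succ.inj
  pred x hx := ⟨x - 1, (Nat.succ_pred_eq_of_ne_zero hx).symm⟩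
  add_zeroM := Nat.add_zero
  add_succM _ _ := rfl
  mul_zeroM := Nat.mul_zero
  mul_succM := Nat.mul_succ
  one_eq := rfl

theorem nat_models_robinsonQ : ℕ ⊨ robinsonQ :=
  model_robinsonQ_iff.2 isRobinsonModel_nat

end FA.RobinsonArithmetic
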