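import Fermat.Agent.RobinsonArithmetic.Models
import Mathlib.Computability.Halting

/-!
# Rosser's comparison of witnesses

Of two Diophantine sets one formula holds at the numerals of the first and fails at the numerals of
the second, outside their common part, in every model of Robinson's arithmetic.
-/

set_option autoImplicit false

namespace FA.RobinsonArithmetic

open FirstOrder Language ArithmeticTruth

/-- The equation has a solution below a bound. -/
noncomputable def boundedSol (β : Type) [Finite β] (a b : arithLanguage.Term (Fin 1 ⊕ β)) :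
    arithLanguage.Formula (Fin 2) :=
  Formula.iExs (β ⊕ β) (Term.equal (a.relabel (Sum.map (fun _ => 0) Sum.inl))
      (b.relabel (Sum.map (fun _ => 0) Sum.inl)) ⊓
    Formula.iInf fun i => Term.equal (addTerm (.var (.inr (.inr i))) (.var (.inr (.inl i))))
      (.var (.inl 1)))

theorem realize_boundedSol {M : Type*} [arithLanguage.Structure M] (β : Type) [Finite β]
    (a b : arithLanguage.Term (Fin 1 ⊕ β)) (x z : M) :
    (boundedSol β a b).Realize ![x, z] ↔ ∃ t : β → M, (∀ i, LeM (t i) z) ∧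
      a.realize (Sum.elim (fun _ => x) t) = b.realize (Sum.elim (fun _ => x) t) := by
  have e : ∀ t : β ⊕ β → M, Sum.elim ![x, z] t ∘ Sum.map (fun _ : Fin 1 => (0 : Fin 2)) Sum.inl =
      Sum.elim (fun _ => x) (t ∘ Sum.inl) := fun t => by
    funext i
    cases i <;> rfl
  simp only [boundedSol, Formula.realize_iExs, Formula.realize_inf, Formula.realize_equal,
    Formula.realize_iInf, realizeM_addTerm, Term.realize_var, Sum.elim_inr, Sum.elim_inl,
    Matrix.cons_val_one, Term.realize_relabel, e]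
  refine ⟨fun ⟨t, ht, hb⟩ => ⟨t ∘ Sum.inl, fun i => ⟨_, hb i⟩, ht⟩, fun ⟨t, hb, ht⟩ => ?_⟩
  choose w hw using hb
  exact ⟨Sum.elim t w, ht, hw⟩

/-- Rosser's formula. -/
noncomputable def rosserFormula (β γ : Type) [Finite β] [Finite γ]
    (a b : arithLanguage.Term (Fin 1 ⊕ β)) (c d : arithLanguage.Term (Fin 1 ⊕ γ)) :
    arithLanguage.Formula (Fin 1) :=
  Formula.iExs (Fin 1) ((boundedSol β a b).relabel ![.inl 0, .inr 0] ⊓
    Formula.iAlls (Fin 2) ((Term.equal (addTerm (.var (.inr 0)) (.var (.inr 1)))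
        (.var (.inl (.inr 0)))).imp
      ((boundedSol γ c d).relabel ![.inl (.inl 0), .inr 1]).not))

theorem realize_rosserFormula {M : Type*} [arithLanguage.Structure M] (β γ : Type) [Finite β]
    [Finite γ] (a b : arithLanguage.Term (Fin 1 ⊕ β)) (c d : arithLanguage.Term (Fin 1 ⊕ γ))
    (x : M) : (rosserFormula β γ a b c d).Realize ![x] ↔
      ∃ z, (boundedSol β a b).Realize ![x, z] ∧
        ∀ y, LeM y z → ¬(boundedSol γ c d).Realize ![x, y] := by
  have e₁ : ∀ z : Fin 1 → M, Sum.elim ![x] z ∘ ![Sum.inl 0, Sum.inr 0] = ![x, z 0] := fun z =>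
    funext (Fin.forall_fin_two.2 ⟨rfl, rfl⟩)
  have e₂ : ∀ (z : Fin 1 → M) (w : Fin 2 → M),
      Sum.elim (Sum.elim ![x] z) w ∘ ![Sum.inl (Sum.inl 0), Sum.inr 1] = ![x, w 1] := fun z w =>
    funext (Fin.forall_fin_two.2 ⟨rfl, rfl⟩)
  simp only [rosserFormula, Formula.realize_iExs, Formula.realize_inf, Formula.realize_iAlls,
    Formula.realize_imp, Formula.realize_not, Formula.realize_relabel, Formula.realize_equal,
    realizeM_addTerm, Term.realize_var, Sum.elim_inr, Sum.elim_inl, e₁, e₂]
  constructor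
  · rintro ⟨z, hz, hy⟩
    exact ⟨z 0, hz, fun y ⟨w, hw⟩ => hy ![w, y] hw⟩
  · rintro ⟨z, hz, hy⟩
    exact ⟨fun _ => z, hz, fun w hw => hy (w 1) ⟨w 0, hw⟩⟩

theorem realizeM_bindVar {M : Type*} [arithLanguage.Structure M]
    (φ : arithLanguage.Formula (Fin 1)) (v : Empty → M) (x : M) :
    (bindVar φ).Realize v ![x] ↔ φ.Realize ![x] := by
  refine BoundedFormula.realize_relabel.trans (iff_of_eq (congrArg₂ _ ?_ (Subsingleton.elim _ _)))
  funext i
  rw [Fin.fin_one_eq_zero i]
  rfl

variable {M : Type*} [arithLanguage.Structure M] {β : Type} [Finite β]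
  {a b : arithLanguage.Term (Fin 1 ⊕ β)}

namespace IsRobinsonModel

variable (h : IsRobinsonModel M)
include h

/-- A solution among the natural numbers is one in the model. -/
theorem boundedSol_of_nat {n : ℕ} {t : β → ℕ}
    (ht : a.realize (Sum.elim (fun _ => n) t) = b.realize (Sum.elim (fun _ => n) t)) :
    ∃ k, (boundedSol β a b).Realize ![(numM n : M), numM k] := by
  obtain ⟨k, hk⟩ : ∃ k, ∀ i, t i ≤ k := by
    cases nonempty_fintype β
    exact ⟨Finset.univ.sup t, fun i => Finset.le_sup (Finset.mem_univ i)⟩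
  refine ⟨k, (realize_boundedSol β a b _ _).2 ⟨fun i => numM (t i),
    fun i => h.numM_le_numM (hk i), ?_⟩⟩
  have e : Sum.elim (fun _ : Fin 1 => (numM n : M)) (fun i => numM (t i)) =
      fun i => numM (Sum.elim (fun _ => n) t i) := by
    funext i
    cases i <;> rfl
  rw [e, h.realize_numM, h.realize_numM, ht]

/-- A solution below a numeral is one among the natural numbers. -/
theorem nat_of_boundedSol {n : ℕ} {y : M} {m : ℕ} (hy : LeM y (numM m))
    (hs : (boundedSol β a b).Realize ![(numM n : M), y]) :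
    ∃ t : β → ℕ, a.realize (Sum.elim (fun _ => n) t) = b.realize (Sum.elim (fun _ => n) t) := by
  obtain ⟨k, -, rfl⟩ := h.exists_of_le_numM hy
  obtain ⟨t, ht, e⟩ := (realize_boundedSol β a b _ _).1 hs
  choose u hu using fun i => h.exists_of_le_numM (ht i)
  obtain rfl : t = fun i => numM (u i) := funext fun i => (hu i).2
  refine ⟨u, h.numM_injective ?_⟩
  have e' : Sum.elim (fun _ : Fin 1 => (numM n : M)) (fun i => numM (u i)) =
      fun i => numM (Sum.elim (fun _ => n) u i) := by
    funext i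
    cases i <;> rfl
  rwa [e', h.realize_numM, h.realize_numM] at e

end IsRobinsonModel

/-- **Rosser separation.** -/
theorem exists_separating {A B : Set ℕ} (hA : REPred fun n => n ∈ A)
    (hB : REPred fun n => n ∈ B) :
    ∃ φ : arithLanguage.BoundedFormula Empty 1, ∀ (M : Type) [arithLanguage.Structure M],
      M ⊨ robinsonQ →
        (∀ n ∈ A, n ∉ B → M ⊨ instanceSentence φ n) ∧
          ∀ n ∈ B, n ∉ A → ¬M ⊨ instanceSentence φ n := by
  obtain ⟨β, iβ, a, b, hab⟩ := exists_equation (dioph_rePred hA (Dioph.proj_dioph (0 : Fin 1)))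
  obtain ⟨γ, iγ, c, d, hcd⟩ := exists_equation (dioph_rePred hB (Dioph.proj_dioph (0 : Fin 1)))
  simp only [Formula.realize_iExs, Formula.realize_equal] at hab hcd
  have eA : ∀ n, n ∈ A ↔ ∃ t : β → ℕ,
      a.realize (Sum.elim (fun _ => n) t) = b.realize (Sum.elim (fun _ => n) t) :=
    fun n => hab fun _ => n
  have eB : ∀ n, n ∈ B ↔ ∃ t : γ → ℕ,
      c.realize (Sum.elim (fun _ => n) t) = d.realize (Sum.elim (fun _ => n) t) :=
    fun n => hcd fun _ => n
  refine ⟨bindVar (rosserFormula β γ a b c d), fun M _ hM => ?_⟩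
  have h := model_robinsonQ_iff.1 hM
  simp only [h.realize_instance, realizeM_bindVar, realize_rosserFormula]
  refine ⟨fun n hn hn' => ?_, fun n hn hn' => ?_⟩
  · obtain ⟨t, ht⟩ := (eA n).1 hn
    obtain ⟨k, hk⟩ := h.boundedSol_of_nat (b := b) ht
    exact ⟨numM k, hk, fun y hy hs => hn' ((eB n).2 (h.nat_of_boundedSol hy hs))⟩
  · rintro ⟨z, hz, hy⟩
    obtain ⟨t, ht⟩ := (eB n).1 hn
    obtain ⟨k, hk⟩ := h.boundedSol_of_nat (b := d) ht
    rcases h.le_or_succ_le k z with hle | hlt
    · exact hn' ((eA n).2 (h.nat_of_boundedSol hle hz))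
    · exact hy _ (h.le_of_succ_le k hlt) hk

open Nat.Partrec (Code) in
/-- **Recursively inseparable sets.** -/
theorem exists_inseparable : ∃ A B : Set ℕ, REPred (fun n => n ∈ A) ∧ REPred (fun n => n ∈ B) ∧
    (∀ n, ¬(n ∈ A ∧ n ∈ B)) ∧
      ¬∃ f : ℕ → Bool, Computable f ∧ (∀ n ∈ A, f n = true) ∧ ∀ n ∈ B, f n = false := by
  have hre : ∀ j : ℕ, REPred fun n => j ∈ Code.eval (Denumerable.ofNat Code n) n := fun j => by
    refine ((Partrec.rfind ((Primrec.eq.comp (Code.primrec_evaln.comp (Primrec.pair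
      (Primrec.pair Primrec.snd ((Primrec.ofNat Code).comp Primrec.fst)) Primrec.fst))
      (Primrec.const (some j))).decide.to_comp.to₂ :
        Computable₂ fun n N : ℕ => decide (Code.evaln N (Denumerable.ofNat Code n) n = some j)
      ).partrec₂).dom_re).of_eq fun n => ?_
    simp [Nat.rfind_dom, Code.evaln_complete]
  refine ⟨_, _, hre 0, hre 1, fun n ⟨h₀, h₁⟩ => Nat.zero_ne_one (Part.mem_unique h₀ h₁), ?_⟩
  rintro ⟨f, hf, hA, hB⟩
  obtain ⟨c, hc⟩ := Code.exists_code.1 (Partrec.nat_iff.1 (Computable.cond hf (Computable.const 1)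
    (Computable.const 0)).partrec)
  have hev : Code.eval (Denumerable.ofNat Code (Encodable.encode c)) (Encodable.encode c) =
      Part.some (cond (f (Encodable.encode c)) 1 0) := by
    rw [Denumerable.ofNat_encode, hc]
    rfl
  cases hfc : f (Encodable.encode c)
  · rw [hfc] at hev
    simp [hA _ (hev ▸ Part.mem_some _)] at hfc
  · rw [hfc] at hev
    simp [hB _ (hev ▸ Part.mem_some _)] at hfc

end FA.RobinsonArithmetic
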